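/-
S56, node [GW-EC] (owner helper26), cell [EC-GA] (helper14).  Prefix `s56ega_`.
THE CONCRETE EULER–POINCARÉ DEFECT `f` of plan v2 (#3414), as a function on the representations of
a finite quotient `π : G_ℚ → Δ`, in the input shape of helper25's formal theorem `s56ei_form`
(`f : ∀ (M : Type) [AddCommGroup M] [Module (ZMod p) M], Representation (ZMod p) Δ M → ℤ`).

* `s56ega_infl π ρ`   : the inflation `Rep.of (ρ.comp π) : Rep (ZMod p) G_ℚ`;
* `s56ega_f p S π`    : `f M ρ = h¹_S − h⁰ − h²_S − dim M + h⁰_∞` of `s56ega_infl π ρ` (frozen vocabulary: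
                        `continuousH1S`, `continuousH2S`, `invariants`, `s56gw_resInf`);
* `s56ega_Lvl S π`    : `π` is onto and its kernel contains a level of `tl_levelsS S`;
* `s56ega_f_le_zero_iff` : `f M ρ ≤ 0` IS the inequality of `s56gw_GEC_stmt` for `s56ega_infl π ρ`;
* `s56ega_infl_dualTwist` : inflation commutes with the dual twist.
-/
import Mathlib
import Fermat.Agent.S56.GW.Seams
import Fermat.Agent.S55.Trans.Levels

set_option autoImplicit false

open CategoryTheory Module groupCohomology ExtCitation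

namespace Fermat.Agent.S56

open Fermat.Agent.S55

local notation "GQ" => (AlgebraicClosure ℚ ≃ₐ[ℚ] AlgebraicClosure ℚ)

section defs

variable {p : ℕ} [Fact p.Prime] {Δ : Type} [Group Δ]

/-- The inflation of a representation of `Δ` along `π : G_ℚ → Δ`. -/
noncomputable abbrev s56ega_infl (π : GQ →* Δ) {M : Type} [AddCommGroup M] [Module (ZMod p) M]
    (ρ : Representation (ZMod p) Δ M) : Rep.{0} (ZMod p) GQ :=
  Rep.of (ρ.comp π)

theorem s56ega_infl_ρ (π : GQ →* Δ) {M : Type} [AddCommGroup M] [Module (ZMod p) M]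
    (ρ : Representation (ZMod p) Δ M) (g : GQ) : (s56ega_infl π ρ).ρ g = ρ (π g) := rfl

variable (p) in
/-- **The concrete defect** `f(M) = h¹_S(M) − h⁰(M) − h²_S(M) − dim M + h⁰_∞(M)` of the inflation of
`(M, ρ)` to `G_ℚ`; `s56gw_GEC_stmt` for `s56ega_infl π ρ` says `f M ρ ≤ 0` (+ finiteness). -/
noncomputable def s56ega_f (S : Finset Nat.Primes) (π : GQ →* Δ) :
    ∀ (M : Type) [AddCommGroup M] [Module (ZMod p) M], Representation (ZMod p) Δ M → ℤ :=
  fun M _ _ ρ =>
    (finrank (ZMod p) (continuousH1S S (s56ega_infl π ρ)) : ℤ)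
      - (finrank (ZMod p) (s56ega_infl π ρ).ρ.invariants : ℤ)
      - (finrank (ZMod p) (continuousH2S S (s56ega_infl π ρ)) : ℤ)
      - (finrank (ZMod p) M : ℤ)
      + (finrank (ZMod p) (s56gw_resInf (s56ega_infl π ρ)).ρ.invariants : ℤ)

theorem s56ega_f_def (S : Finset Nat.Primes) (π : GQ →* Δ) (M : Type) [AddCommGroup M]
    [Module (ZMod p) M] (ρ : Representation (ZMod p) Δ M) :
    s56ega_f p S π M ρ =
      (finrank (ZMod p) (continuousH1S S (s56ega_infl π ρ)) : ℤ)
        - (finrank (ZMod p) (s56ega_infl π ρ).ρ.invariants : ℤ)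
        - (finrank (ZMod p) (continuousH2S S (s56ega_infl π ρ)) : ℤ)
        - (finrank (ZMod p) M : ℤ)
        + (finrank (ZMod p) (s56gw_resInf (s56ega_infl π ρ)).ρ.invariants : ℤ) := rfl

/-- `f M ρ ≤ 0` is the inequality of `s56gw_GEC_stmt` for the inflation of `(M, ρ)`. -/
theorem s56ega_f_le_zero_iff (S : Finset Nat.Primes) (π : GQ →* Δ) (M : Type) [AddCommGroup M]
    [Module (ZMod p) M] (ρ : Representation (ZMod p) Δ M) :
    s56ega_f p S π M ρ ≤ 0 ↔
      finrank (ZMod p) (continuousH1S S (s56ega_infl π ρ))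
          + finrank (ZMod p) (s56gw_resInf (s56ega_infl π ρ)).ρ.invariants
        ≤ finrank (ZMod p) (s56ega_infl π ρ).ρ.invariants
          + finrank (ZMod p) (continuousH2S S (s56ega_infl π ρ))
          + finrank (ZMod p) (s56ega_infl π ρ) := by
  rw [s56ega_f_def]
  have h : finrank (ZMod p) (s56ega_infl π ρ) = finrank (ZMod p) M := rfl
  rw [h]
  omega

/-- `π : G_ℚ → Δ` is onto with kernel containing a level unramified outside `S`
(e.g. `π = a.q`, `a : du_Lev S`). -/
structure s56ega_Lvl (S : Finset Nat.Primes) (π : GQ →* Δ) : Prop where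
  surj : Function.Surjective π
  ker : ∃ U ∈ (tl_levelsS S).levels, U ≤ π.ker

/-- The inflated module is smooth for the levels unramified outside `S`. -/
theorem s56ega_Lvl.isSmooth {S : Finset Nat.Primes} {π : GQ →* Δ} (hπ : s56ega_Lvl S π)
    {M : Type} [AddCommGroup M] [Module (ZMod p) M] (ρ : Representation (ZMod p) Δ M) :
    (tl_levelsS S).IsSmooth (tl_Act (s56ega_infl π ρ)) := by
  obtain ⟨U, hU, hUk⟩ := hπ.ker
  intro x
  refine ⟨U, hU, fun u hu => ?_⟩
  show ρ (π u) x = x
  rw [MonoidHom.mem_ker.mp (hUk hu), map_one]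
  rfl

/-- The `G_ℚ`-invariants of the inflation are the `Δ`-invariants (`π` onto). -/
theorem s56ega_invariants_infl {π : GQ →* Δ} (hπ : Function.Surjective π)
    {M : Type} [AddCommGroup M] [Module (ZMod p) M] (ρ : Representation (ZMod p) Δ M) :
    (s56ega_infl π ρ).ρ.invariants = ρ.invariants := by
  ext m
  rw [Representation.mem_invariants, Representation.mem_invariants]
  constructor
  · intro h δ
    obtain ⟨g, rfl⟩ := hπ δ
    exact h g
  · intro h g
    exact h (π g)

/-- Inflation commutes with the dual twist. -/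
theorem s56ega_infl_dualTwist (π : GQ →* Δ) (χ : Δ →* (ZMod p)ˣ)
    (hχ : ∀ g : GQ, χ (π g) = cycloChar p g)
    {M : Type} [AddCommGroup M] [Module (ZMod p) M] (ρ : Representation (ZMod p) Δ M) :
    s56ega_infl π (ρ.dual.twist χ) = s56gw_dual (s56ega_infl π ρ) := by
  have h : (ρ.dual.twist χ).comp π
      = (Representation.dual (ρ.comp π : Representation (ZMod p) GQ M)).twist (cycloChar p) := by
    ext g φ m
    simp only [MonoidHom.comp_apply, Representation.twist_apply_apply, Representation.dual_apply,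
      map_inv, hχ g]
  show Rep.of ((ρ.dual.twist χ).comp π)
    = Rep.of ((Representation.dual (ρ.comp π : Representation (ZMod p) GQ M)).twist (cycloChar p))
  rw [h]

end defs

end Fermat.Agent.S56
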