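/-
S56, node [GW-EC], cell [EC-GA] (helper14).  Prefix `s56ega_`.
FINITENESS OF THE TATE–SHAFAREVICH GROUPS: the assembly of S55 (`Fermat.Agent.S55.result`) re-run up
to the finiteness statement of `du_main` (which `S55.result` forgets).
-/
import Fermat.Agent.S55.Recip.S55OfRecip
import Fermat.Agent.S55.Recip.RecipMain
import Fermat.Agent.S55.Recip.RecipInner

set_option autoImplicit false

open CategoryTheory Module groupCohomology ExtCitation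

namespace Fermat.Agent.S56

open Fermat.Agent.S55

local notation "GQ" => (AlgebraicClosure ℚ ≃ₐ[ℚ] AlgebraicClosure ℚ)
local notation "Qbar" => AlgebraicClosure ℚ

/-- **`Ш¹_S(M^*(1))` and `Ш²_S(M)` are finite** (level form), for `M` finite, smooth, unramified
outside `S ∋ p`, `p` odd. -/
theorem s56ega_sha_finite {p : ℕ} [Fact p.Prime] (hp2 : p ≠ 2) (S : Finset Nat.Primes)
    (hpS : pPrime p ∈ S) (M : Rep.{0} (ZMod p) GQ) [FiniteDimensional (ZMod p) M]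
    (hsm : ∀ m : M, ∃ F : IntermediateField ℚ Qbar, FiniteDimensional ℚ F ∧
      ∀ s ∈ F.fixingSubgroup, M.ρ s m = m)
    (hMur : ∀ q : Nat.Primes, q ∉ S → ∀ A : ValuationSubring Qbar,
      A.LiesOverPrime (q : ℕ) → ∀ g ∈ A.inertiaSubgroupIn ℚ, M.ρ g = 1) :
    Finite ↥(tl_lvSha1 S (M.dualTwist (cycloChar p))) ∧ Finite ↥(tl_lvSha2 S M) := by
  have hrec : rc_so_Recip p :=
    rc_rm_outer hp2 (fun hpT' a K ζ₁ hζ₁ hKζ l' hl' ζl hζl _ _ hK' hlK hnp u hk =>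
      rc_rm_inner p hp2 hpT' a K ζ₁ hζ₁ hKζ l' hl' ζl hζl hK' hlK hnp u hk)
  let 𝔖 : du_Seam p S := rc_so_seam hp2 hrec hpS
  obtain ⟨ζ, hζ⟩ := du_exists_zeta p
  obtain ⟨K, hM, hχ, hA'⟩ := du_exists_K0 S M hpS hsm hMur
  have hA : ∀ σ ∈ K.L.fixingSubgroup, ∀ x : (M.dualTwist (cycloChar p)).V,
      (M.dualTwist (cycloChar p)).ρ σ x = x := by
    intro σ hσ x
    rw [hA' σ hσ]
    rfl
  obtain ⟨hf1, hf2, -⟩ := du_main 𝔖 M K hA (du_TN 𝔖) (ab_seam 𝔖 K)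
    ⟨K, fun a h _ => du_hX_of 𝔖 M K hA hpS hζ (bi_du_V2 𝔖 hpS M K hA) h
      (xf_D3X 𝔖 M K hA hpS hζ h)⟩
  exact ⟨hf1, hf2⟩

end Fermat.Agent.S56
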