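/-
S56, node [GW-EC], cell [EC-GA] (helper14).  Prefix `s56ega_`.
FINITENESS of `H¹(G_S, N)` and `H²(G_S, N)` (level form and frozen form) for every finite smooth
`N` unramified outside `S ∋ p`, from the local finiteness in `s56gw_LEC_stmt` and the finiteness of
the Tate–Shafarevich groups (`s56ega_sha_finite`);  and the DICTIONARY
`Nat.card lvHⁱ (tl_levelsS S) (tl_Act N) = p ^ finrank (frozen Hⁱ)`.
-/
import Fermat.Agent.S56.GW.EC.GA.Sha
import Fermat.Agent.S56.GW.EC.GA.Defs
import Fermat.Agent.S56.GW.Dual.D4.LocBridge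
import Fermat.Agent.S56.GW.EC.Form

set_option autoImplicit false

open CategoryTheory Module groupCohomology ExtCitation

namespace Fermat.Agent.S56

open Fermat.Agent.S55

local notation "GQ" => (AlgebraicClosure ℚ ≃ₐ[ℚ] AlgebraicClosure ℚ)

section generic

/-- A family of homomorphisms into finite groups, indexed by a finite type, with a finite joint
kernel, has a finite source. -/
theorem s56ega_finite_of_ker {ι : Type*} [Finite ι] {X : Type*} [AddCommGroup X]
    {T : ι → Type*} [∀ i, AddCommGroup (T i)] [∀ i, Finite (T i)] (φ : ∀ i, X →+ T i)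
    (hker : Finite ↥(⨅ i, (φ i).ker)) : Finite X := by
  classical
  let Φ : X → (∀ i, T i) := fun x i => φ i x
  let s : (∀ i, T i) → X := fun y => if h : ∃ x, Φ x = y then Classical.choose h else 0
  have hs : ∀ x, Φ (s (Φ x)) = Φ x := by
    intro x
    have h : ∃ x', Φ x' = Φ x := ⟨x, rfl⟩
    show Φ (if h : ∃ x', Φ x' = Φ x then Classical.choose h else 0) = Φ x
    rw [dif_pos h]
    exact Classical.choose_spec h
  have hmem : ∀ x, x - s (Φ x) ∈ ⨅ i, (φ i).ker := by
    intro x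
    rw [AddSubgroup.mem_iInf]
    intro i
    rw [AddMonoidHom.mem_ker, map_sub, sub_eq_zero]
    exact (congrFun (hs x) i).symm
  let Ψ : X → (∀ i, T i) × ↥(⨅ i, (φ i).ker) := fun x => (Φ x, ⟨x - s (Φ x), hmem x⟩)
  have hΨ : Function.Injective Ψ := by
    intro x x' h
    have h1 : Φ x = Φ x' := congrArg Prod.fst h
    have h2 : x - s (Φ x) = x' - s (Φ x') := congrArg (fun z => (z.2 : X)) h
    rw [h1] at h2
    exact sub_left_injective h2
  exact Finite.of_injective Ψ hΨ

/-- An equivariant isomorphism of coefficients induces an injection on level `H¹`. -/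
theorem s56ega_H1_injective_of_equiv {G : Type*} [Group G] (L : LevelSys G)
    {X Y : Type*} [AddCommGroup X] [DistribMulAction G X] [AddCommGroup Y] [DistribMulAction G Y]
    (e : X ≃+ Y) (he : ∀ (g : G) (x : X), e.toAddMonoidHom (g • x) = g • e.toAddMonoidHom x) :
    Function.Injective (LvMor.ofCoeff L e.toAddMonoidHom he).H1 := by
  rw [injective_iff_map_eq_zero]
  intro x hx
  obtain ⟨c, rfl⟩ := lvH1mk_surjective x
  rw [LvMor.H1_mk, lvH1mk_eq_zero_iff] at hx
  obtain ⟨y, hy⟩ := hx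
  rw [lvH1mk_eq_zero_iff]
  refine ⟨e.symm y, ?_⟩
  funext g
  apply e.injective
  have h1 := congrFun hy g
  rw [LvMor.Z1_coe, LvMor.pull1_apply, lvD0_apply] at h1
  rw [lvD0_apply, map_sub]
  have h2 : e (g • e.symm y) = g • y := by
    have := he g (e.symm y)
    simpa using this
  rw [h2, AddEquiv.apply_symm_apply]
  exact h1

end generic

section fin

variable {p : ℕ} [Fact p.Prime]

/-- `H¹(G_S, Y)` is finite if `Ш¹_S(Y)` is (local finiteness from `s56gw_LEC_stmt`). -/
theorem s56ega_finite_lvH1 (hLEC : s56gw_LEC_stmt) (hp2 : p ≠ 2) (S : Finset Nat.Primes)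
    (Y : Rep.{0} (ZMod p) GQ) [FiniteDimensional (ZMod p) Y] (hsm : s56gw_Smooth Y)
    (hsha : Finite ↥(tl_lvSha1 S Y)) : Finite (lvH1 (tl_levelsS S) (tl_Act Y)) := by
  have hloc : ∀ q : ↥S, Finite (lvH1 (tl_levelsVia (primeLocalToGlobal q.1))
      (tl_Act (Rep.res (primeLocalToGlobal q.1) Y))) := by
    intro q
    have h1 : FiniteDimensional (ZMod p) ↥(s56gw_cH1 Y q.1) := (hLEC p hp2 Y hsm q.1).1
    have h2 : Finite ↥(s56gw_cH1 Y q.1) := Module.finite_of_finite (ZMod p)
    exact Finite.of_equiv _ (s56gdr_locEquiv Y q.1).symm.toEquiv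
  exact s56ega_finite_of_ker
    (fun q : ↥S => (tl_locMor S (primeLocalToGlobal q.1) Y).H1) hsha

/-- `H²(G_S, Y)` is finite if `Ш²_S(Y)` is (local finiteness from `s56gw_LEC_stmt`). -/
theorem s56ega_finite_lvH2 (hLEC : s56gw_LEC_stmt) (hp2 : p ≠ 2) (S : Finset Nat.Primes)
    (Y : Rep.{0} (ZMod p) GQ) [FiniteDimensional (ZMod p) Y] (hsm : s56gw_Smooth Y)
    (hsha : Finite ↥(tl_lvSha2 S Y)) : Finite (lvH2 (tl_levelsS S) (tl_Act Y)) := by
  have hloc : ∀ q : ↥S, Finite (lvH2 (tl_levelsVia (primeLocalToGlobal q.1))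
      (tl_Act (Rep.res (primeLocalToGlobal q.1) Y))) := by
    intro q
    have h1 : FiniteDimensional (ZMod p)
        (continuousH2 (primeLocalToGlobal q.1) (s56gw_res Y q.1)) := (hLEC p hp2 Y hsm q.1).2.1
    have h2 : Finite (continuousH2 (primeLocalToGlobal q.1) (s56gw_res Y q.1)) :=
      Module.finite_of_finite (ZMod p)
    exact Finite.of_equiv _ (tl_H2via_equiv (primeLocalToGlobal q.1) (s56gw_res Y q.1)).toEquiv
  exact s56ega_finite_of_ker
    (fun q : ↥S => (tl_locMor S (primeLocalToGlobal q.1) Y).H2) hsha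

/-- **Finiteness of `H¹(G_S, N)` and `H²(G_S, N)`, level form.** -/
theorem s56ega_fin_lv (hLEC : s56gw_LEC_stmt) (hp2 : p ≠ 2) (S : Finset Nat.Primes)
    (hpS : pPrime p ∈ S) (N : Rep.{0} (ZMod p) GQ) [FiniteDimensional (ZMod p) N]
    (hsm : s56gw_Smooth N) (hur : s56gw_UnrOut S N) :
    Finite (lvH1 (tl_levelsS S) (tl_Act N)) ∧ Finite (lvH2 (tl_levelsS S) (tl_Act N)) := by
  refine ⟨?_, s56ega_finite_lvH2 hLEC hp2 S N hsm (s56ega_sha_finite hp2 S hpS N hsm hur).2⟩
  -- `N' = N^*(1)`, `N'' = N'^*(1) ≅ N`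
  have hsm' := tl_dualTwist_smooth N hsm
  have hur' := tl_dualTwist_unramified N S hpS hur
  have hsm'' := tl_dualTwist_smooth (N.dualTwist (cycloChar p)) hsm'
  have hsha := (s56ega_sha_finite hp2 S hpS (N.dualTwist (cycloChar p)) hsm' hur').1
  have hfin'' := s56ega_finite_lvH1 hLEC hp2 S
    ((N.dualTwist (cycloChar p)).dualTwist (cycloChar p)) hsm'' hsha
  let e : tl_Act N ≃+ tl_Act ((N.dualTwist (cycloChar p)).dualTwist (cycloChar p)) :=
    (Module.evalEquiv (ZMod p) N.V).toAddEquiv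
  have he : ∀ (g : GQ) (x : tl_Act N), e.toAddMonoidHom (g • x) = g • e.toAddMonoidHom x := by
    intro g x
    exact s56ef_eval_equiv (χ := cycloChar p) N.ρ g x
  exact Finite.of_injective _ (s56ega_H1_injective_of_equiv (tl_levelsS S) e he)

/-- **Finiteness of `H¹(G_S, N)` and `H²(G_S, N)`, frozen form** (the first two conjuncts of
`s56gw_GEC_stmt`). -/
theorem s56ega_fin (hLEC : s56gw_LEC_stmt) (hp2 : p ≠ 2) (S : Finset Nat.Primes)
    (hpS : pPrime p ∈ S) (N : Rep.{0} (ZMod p) GQ) [FiniteDimensional (ZMod p) N]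
    (hsm : s56gw_Smooth N) (hur : s56gw_UnrOut S N) :
    FiniteDimensional (ZMod p) (continuousH1S S N) ∧
      FiniteDimensional (ZMod p) (continuousH2S S N) := by
  obtain ⟨h1, h2⟩ := s56ega_fin_lv hLEC hp2 S hpS N hsm hur
  have h1' : Finite ↥(continuousH1S S N) := Finite.of_equiv _ (s56gdr_globEquiv S N).toEquiv
  have h2' : Finite (continuousH2S S N) := Finite.of_equiv _ (tl_H2S_equiv S N).symm.toEquiv
  exact ⟨Module.Finite.of_finite, Module.Finite.of_finite⟩

end fin

section card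

variable {p : ℕ} [Fact p.Prime] (S : Finset Nat.Primes) (N : Rep.{0} (ZMod p) GQ)

/-- `lvH0 = invariants`. -/
def s56ega_H0Equiv : lvH0 (G := GQ) (tl_Act N) ≃ ↥N.ρ.invariants where
  toFun x := ⟨x.1, fun g => x.2 g⟩
  invFun x := ⟨x.1, fun g => x.2 g⟩
  left_inv _ := rfl
  right_inv _ := rfl

theorem s56ega_card_H0 [FiniteDimensional (ZMod p) N] :
    Nat.card (lvH0 (G := GQ) (tl_Act N)) = p ^ finrank (ZMod p) ↥N.ρ.invariants := by
  rw [Nat.card_congr (s56ega_H0Equiv N), Module.natCard_eq_pow_finrank (K := ZMod p),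
    Nat.card_zmod]

theorem s56ega_card_H1 [FiniteDimensional (ZMod p) (continuousH1S S N)] :
    Nat.card (lvH1 (tl_levelsS S) (tl_Act N)) = p ^ finrank (ZMod p) ↥(continuousH1S S N) := by
  rw [Nat.card_congr (s56gdr_globEquiv S N).toEquiv, Module.natCard_eq_pow_finrank (K := ZMod p),
    Nat.card_zmod]

theorem s56ega_card_H2 [FiniteDimensional (ZMod p) (continuousH2S S N)] :
    Nat.card (lvH2 (tl_levelsS S) (tl_Act N)) = p ^ finrank (ZMod p) (continuousH2S S N) := by
  rw [Nat.card_congr (tl_H2S_equiv S N).symm.toEquiv,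
    Module.natCard_eq_pow_finrank (K := ZMod p), Nat.card_zmod]

end card

end Fermat.Agent.S56
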