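/-
S56, node [GW-EC], cell [EC-GA] (helper14).  Prefix `s56ega_`.  Mathlib only.
EXACTNESS OF INVARIANTS for a finite group of invertible order (averaging), in the form of the
additivity of `dim M^D` on short exact sequences; and the additivity of `dim M`.
-/
import Mathlib

set_option autoImplicit false

open Module Function

namespace Fermat.Agent.S56

section

variable {k : Type*} [Field k]
  {M₁ M₂ M₃ : Type*} [AddCommGroup M₁] [Module k M₁] [AddCommGroup M₂] [Module k M₂]
  [AddCommGroup M₃] [Module k M₃]

/-- `dim M₂ = dim M₁ + dim M₃` on a short exact sequence. -/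
theorem s56ega_finrank_add [Module.Finite k M₂] (i : M₁ →ₗ[k] M₂) (q : M₂ →ₗ[k] M₃)
    (hi : Injective i) (hq : Surjective q) (hiq : LinearMap.range i = LinearMap.ker q) :
    finrank k M₂ = finrank k M₁ + finrank k M₃ := by
  have h1 := LinearMap.finrank_range_add_finrank_ker q
  rw [LinearMap.range_eq_top.2 hq, finrank_top, ← hiq, LinearMap.finrank_range_of_inj hi] at h1
  omega

variable {D : Type*} [Group D] [Finite D]

/-- **Invariants under a finite group of invertible order are exact**: `dim M₂^D = dim M₁^D +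
dim M₃^D` on a short exact sequence of representations. -/
theorem s56ega_finrank_invariants_add (u : k) (hu : u * (Nat.card D : k) = 1)
    [Module.Finite k M₂]
    (ρ₁ : Representation k D M₁) (ρ₂ : Representation k D M₂) (ρ₃ : Representation k D M₃)
    (i : M₁ →ₗ[k] M₂) (q : M₂ →ₗ[k] M₃)
    (hi : Injective i) (hq : Surjective q) (hiq : LinearMap.range i = LinearMap.ker q)
    (hie : ∀ g m, i (ρ₁ g m) = ρ₂ g (i m)) (hqe : ∀ g m, q (ρ₂ g m) = ρ₃ g (q m)) :
    finrank k ρ₂.invariants = finrank k ρ₁.invariants + finrank k ρ₃.invariants := by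
  classical
  have : Fintype D := Fintype.ofFinite D
  have hcard : (Nat.card D : k) = (Fintype.card D : k) := by rw [Nat.card_eq_fintype_card]
  -- the restricted maps
  have hi' : ∀ m ∈ ρ₁.invariants, i m ∈ ρ₂.invariants := by
    intro m hm g
    rw [← hie, hm g]
  have hq' : ∀ m ∈ ρ₂.invariants, q m ∈ ρ₃.invariants := by
    intro m hm g
    rw [← hqe, hm g]
  let i' : ρ₁.invariants →ₗ[k] ρ₂.invariants := i.restrict hi'
  let q' : ρ₂.invariants →ₗ[k] ρ₃.invariants := q.restrict hq'
  have hi'inj : Injective i' := by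
    intro a b hab
    apply Subtype.ext
    apply hi
    exact congrArg Subtype.val hab
  -- averaging
  have havg : ∀ b : M₂, (u • ∑ h : D, ρ₂ h b) ∈ ρ₂.invariants := by
    intro b g
    rw [map_smul, map_sum]
    congr 1
    refine Fintype.sum_equiv (Equiv.mulLeft g) _ _ (fun h => ?_)
    rw [Equiv.coe_mulLeft, map_mul]
    rfl
  have hq'surj : Surjective q' := by
    intro c
    obtain ⟨b, hb⟩ := hq c.1
    refine ⟨⟨u • ∑ h : D, ρ₂ h b, havg b⟩, ?_⟩
    apply Subtype.ext
    show q (u • ∑ h : D, ρ₂ h b) = c.1
    rw [map_smul, map_sum]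
    have h1 : ∀ h : D, q (ρ₂ h b) = c.1 := by
      intro h
      rw [hqe, hb]
      exact c.2 h
    rw [Finset.sum_congr rfl (fun h _ => h1 h), Finset.sum_const, Finset.card_univ,
      ← Nat.cast_smul_eq_nsmul k, smul_smul, ← hcard, hu, one_smul]
  have hker : LinearMap.range i' = LinearMap.ker q' := by
    ext b
    rw [LinearMap.mem_range, LinearMap.mem_ker]
    constructor
    · rintro ⟨a, rfl⟩
      apply Subtype.ext
      show q (i a.1) = 0
      have : i a.1 ∈ LinearMap.ker q := by rw [← hiq]; exact ⟨a.1, rfl⟩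
      exact this
    · intro hb
      have hb' : q b.1 = 0 := congrArg Subtype.val hb
      have : b.1 ∈ LinearMap.range i := by rw [hiq]; exact hb'
      obtain ⟨a, ha⟩ := this
      refine ⟨⟨a, fun g => ?_⟩, Subtype.ext ha⟩
      apply hi
      rw [hie, ha]
      exact b.2 g
  exact s56ega_finrank_add i' q' hi'inj hq'surj hker

end

end Fermat.Agent.S56
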