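/-
S56, node [GW-EC], cell [EC-GA] (helper14).  Prefix `s56ega_`.
(A) SUPERADDITIVITY of the concrete defect `s56ega_f p S π` on short exact sequences of finite
`Δ`-modules (= `s56ef_Input.super` / `s56ei_SuperAdd` VERBATIM), from the long exact sequence of level
cohomology (`s56ecs_chi_le`, helper8), the finiteness `s56ega_fin_lv`, the dictionary
`Nat.card lvHⁱ = p ^ finrank`, and the additivity of `dim M` and of `h⁰_∞` (`p` odd).
Also `s56ega_zero` (= `s56ef_Input.zero`).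
-/
import Fermat.Agent.S56.GW.EC.GA.Fin
import Fermat.Agent.S56.GW.EC.GA.Inv
import Fermat.Agent.S56.GW.EC.Syl.Additive
import Fermat.Agent.S56.GW.EC.Ind.Formal

set_option autoImplicit false

open CategoryTheory Module groupCohomology ExtCitation

namespace Fermat.Agent.S56

open Fermat.Agent.S55

local notation "GQ" => (AlgebraicClosure ℚ ≃ₐ[ℚ] AlgebraicClosure ℚ)

section

variable {p : ℕ} [Fact p.Prime] {Δ : Type} [Group Δ] {S : Finset Nat.Primes} {π : GQ →* Δ}

/-- The inflation is smooth (frozen form). -/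
theorem s56ega_Lvl.smooth (hπ : s56ega_Lvl S π) {M : Type} [AddCommGroup M] [Module (ZMod p) M]
    (ρ : Representation (ZMod p) Δ M) : s56gw_Smooth (s56ega_infl π ρ) := by
  obtain ⟨U, ⟨F, hF, rfl⟩, hUk⟩ := hπ.ker
  intro m
  refine ⟨F, hF.1, fun s hs => ?_⟩
  show ρ (π s) m = m
  rw [MonoidHom.mem_ker.mp (hUk hs), map_one]
  rfl

/-- The inflation is unramified outside `S`. -/
theorem s56ega_Lvl.unrOut (hπ : s56ega_Lvl S π) {M : Type} [AddCommGroup M] [Module (ZMod p) M]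
    (ρ : Representation (ZMod p) Δ M) : s56gw_UnrOut S (s56ega_infl π ρ) := by
  obtain ⟨U, ⟨F, hF, rfl⟩, hUk⟩ := hπ.ker
  intro q hq A hA g hg
  show ρ (π g) = 1
  rw [MonoidHom.mem_ker.mp (hUk (hF.2 q hq A hA hg)), map_one]

/-- The short exact sequence of inflated modules. -/
def s56ega_ses (π : GQ →* Δ) {M₁ M₂ M₃ : Type} [AddCommGroup M₁] [Module (ZMod p) M₁]
    [AddCommGroup M₂] [Module (ZMod p) M₂] [AddCommGroup M₃] [Module (ZMod p) M₃]
    (ρ₁ : Representation (ZMod p) Δ M₁) (ρ₂ : Representation (ZMod p) Δ M₂)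
    (ρ₃ : Representation (ZMod p) Δ M₃) (i : M₁ →ₗ[ZMod p] M₂) (q : M₂ →ₗ[ZMod p] M₃)
    (hi : Function.Injective i) (hq : Function.Surjective q)
    (hiq : LinearMap.range i = LinearMap.ker q)
    (hie : ∀ g m, i (ρ₁ g m) = ρ₂ g (i m)) (hqe : ∀ g m, q (ρ₂ g m) = ρ₃ g (q m)) :
    LvSES GQ (tl_Act (s56ega_infl π ρ₁)) (tl_Act (s56ega_infl π ρ₂))
      (tl_Act (s56ega_infl π ρ₃)) where
  i := (i.toAddMonoidHom : M₁ →+ M₂)
  π := (q.toAddMonoidHom : M₂ →+ M₃)
  i_equiv := fun g a => hie (π g) a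
  π_equiv := fun g b => hqe (π g) b
  i_inj := hi
  π_surj := hq
  exact := fun (b : M₂) => by
    show q b = 0 ↔ ∃ a : M₁, i a = b
    rw [← LinearMap.mem_ker, ← hiq, LinearMap.mem_range]

/-- **(A), core form**: the concrete defect is superadditive on short exact sequences, as soon as
all inflations are smooth and unramified outside `S`. -/
theorem s56ega_super_core (hLEC : s56gw_LEC_stmt) (hp2 : p ≠ 2) (hpS : pPrime p ∈ S)
    (hsmo : ∀ (M : Type) [AddCommGroup M] [Module (ZMod p) M] (ρ : Representation (ZMod p) Δ M),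
      s56gw_Smooth (s56ega_infl π ρ))
    (hunr : ∀ (M : Type) [AddCommGroup M] [Module (ZMod p) M] (ρ : Representation (ZMod p) Δ M),
      s56gw_UnrOut S (s56ega_infl π ρ)) : s56ei_SuperAdd (s56ega_f p S π) := by
  intro M₁ M₂ M₃ _ _ _ _ _ _ _ _ _ ρ₁ ρ₂ ρ₃ i q hi hq hiq hie hqe
  have hp : p.Prime := Fact.out
  -- finiteness
  have hfd₁ : FiniteDimensional (ZMod p) (s56ega_infl π ρ₁) :=
    inferInstanceAs (FiniteDimensional (ZMod p) M₁)
  have hfd₂ : FiniteDimensional (ZMod p) (s56ega_infl π ρ₂) :=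
    inferInstanceAs (FiniteDimensional (ZMod p) M₂)
  have hfd₃ : FiniteDimensional (ZMod p) (s56ega_infl π ρ₃) :=
    inferInstanceAs (FiniteDimensional (ZMod p) M₃)
  obtain ⟨hA1, hA2⟩ := s56ega_fin_lv hLEC hp2 S hpS (s56ega_infl π ρ₁) (hsmo M₁ ρ₁) (hunr M₁ ρ₁)
  obtain ⟨hB1, hB2⟩ := s56ega_fin_lv hLEC hp2 S hpS (s56ega_infl π ρ₂) (hsmo M₂ ρ₂) (hunr M₂ ρ₂)
  obtain ⟨hC1, hC2⟩ := s56ega_fin_lv hLEC hp2 S hpS (s56ega_infl π ρ₃) (hsmo M₃ ρ₃) (hunr M₃ ρ₃)
  obtain ⟨hA1', hA2'⟩ := s56ega_fin hLEC hp2 S hpS (s56ega_infl π ρ₁) (hsmo M₁ ρ₁) (hunr M₁ ρ₁)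
  obtain ⟨hB1', hB2'⟩ := s56ega_fin hLEC hp2 S hpS (s56ega_infl π ρ₂) (hsmo M₂ ρ₂) (hunr M₂ ρ₂)
  obtain ⟨hC1', hC2'⟩ := s56ega_fin hLEC hp2 S hpS (s56ega_infl π ρ₃) (hsmo M₃ ρ₃) (hunr M₃ ρ₃)
  have hM₁ : Finite (tl_Act (s56ega_infl π ρ₁)) :=
    (Module.finite_of_finite (ZMod p) : Finite M₁)
  have hM₂ : Finite (tl_Act (s56ega_infl π ρ₂)) :=
    (Module.finite_of_finite (ZMod p) : Finite M₂)
  have hM₃ : Finite (tl_Act (s56ega_infl π ρ₃)) :=
    (Module.finite_of_finite (ZMod p) : Finite M₃)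
  have hA0 : Finite (lvH0 (G := GQ) (tl_Act (s56ega_infl π ρ₁))) := inferInstance
  have hB0 : Finite (lvH0 (G := GQ) (tl_Act (s56ega_infl π ρ₂))) := inferInstance
  have hC0 : Finite (lvH0 (G := GQ) (tl_Act (s56ega_infl π ρ₃))) := inferInstance
  -- the long exact sequence
  have key := s56ecs_chi_le (s56ega_ses π ρ₁ ρ₂ ρ₃ i q hi hq hiq hie hqe) (tl_levelsS S)
    (tl_isSmooth_levelsS (s56ega_infl π ρ₂) (hsmo M₂ ρ₂) S (hunr M₂ ρ₂))
  rw [s56ega_card_H0, s56ega_card_H0, s56ega_card_H0, s56ega_card_H1, s56ega_card_H1,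
    s56ega_card_H1, s56ega_card_H2, s56ega_card_H2, s56ega_card_H2] at key
  simp only [← pow_add] at key
  rw [Nat.pow_le_pow_iff_right hp.one_lt] at key
  have key' : finrank (ZMod p) ↥(s56ega_infl π ρ₂).ρ.invariants
        + finrank (ZMod p) ↥(continuousH1S S (s56ega_infl π ρ₁))
        + finrank (ZMod p) ↥(continuousH1S S (s56ega_infl π ρ₃))
        + finrank (ZMod p) (continuousH2S S (s56ega_infl π ρ₂))
      ≤ finrank (ZMod p) ↥(s56ega_infl π ρ₁).ρ.invariants
        + finrank (ZMod p) ↥(s56ega_infl π ρ₃).ρ.invariants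
        + finrank (ZMod p) ↥(continuousH1S S (s56ega_infl π ρ₂))
        + finrank (ZMod p) (continuousH2S S (s56ega_infl π ρ₁))
        + finrank (ZMod p) (continuousH2S S (s56ega_infl π ρ₃)) := key
  -- additivity of `dim` and of `h⁰_∞`
  have hdim := s56ega_finrank_add i q hi hq hiq
  obtain ⟨u, hu⟩ := tl_exists_inv_card_archimedean (p := p) hp2
  have hinf := s56ega_finrank_invariants_add (D := ↥archimedeanDecomposition) u hu
    (s56gw_resInf (s56ega_infl π ρ₁)).ρ (s56gw_resInf (s56ega_infl π ρ₂)).ρ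
    (s56gw_resInf (s56ega_infl π ρ₃)).ρ i q hi hq hiq
    (fun g m => hie (π (archimedeanLoc g)) m) (fun g m => hqe (π (archimedeanLoc g)) m)
  rw [s56ega_f_def, s56ega_f_def, s56ega_f_def]
  omega

/-- **(A)** the concrete defect is superadditive on short exact sequences. -/
theorem s56ega_super (hLEC : s56gw_LEC_stmt) (hp2 : p ≠ 2) (hpS : pPrime p ∈ S)
    (hπ : s56ega_Lvl S π) : s56ei_SuperAdd (s56ega_f p S π) :=
  s56ega_super_core hLEC hp2 hpS (fun _ _ _ ρ => hπ.smooth ρ) (fun _ _ _ ρ => hπ.unrOut ρ)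

/-- The defect of a zero module is zero. -/
theorem s56ega_zero (S : Finset Nat.Primes) (π : GQ →* Δ) (M : Type) [AddCommGroup M]
    [Module (ZMod p) M] [Subsingleton M] (ρ : Representation (ZMod p) Δ M) :
    s56ega_f p S π M ρ = 0 := by
  have hN : Subsingleton (s56ega_infl π ρ) := (inferInstance : Subsingleton M)
  have h1 : Subsingleton (H1 (s56ega_infl π ρ)) := by
    refine ⟨fun x y => ?_⟩
    induction x using H1_induction_on with
    | h c =>
      induction y using H1_induction_on with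
      | h c' =>
        congr 1
        apply Subtype.ext
        funext g
        exact Subsingleton.elim _ _
  have h2 : Subsingleton (continuousH2S S (s56ega_infl π ρ)) := by
    refine ⟨fun x y => ?_⟩
    obtain ⟨c, rfl⟩ := Submodule.Quotient.mk_surjective _ x
    obtain ⟨c', rfl⟩ := Submodule.Quotient.mk_surjective _ y
    congr 1
    apply Subtype.ext
    funext g
    exact Subsingleton.elim _ _
  rw [s56ega_f_def, finrank_zero_of_subsingleton, finrank_zero_of_subsingleton,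
    finrank_zero_of_subsingleton, finrank_zero_of_subsingleton, finrank_zero_of_subsingleton]
  simp

end

end Fermat.Agent.S56
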