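/-
S56, node [GW-EC], cell [EC-GA] (helper14).  Prefix `s56ega_`.
THE TWO SEAMS OF `GW/EC/GDef.lean` OWNED BY [EC-GA], VERBATIM:
* `s56ega_main     (hLEC : s56gw_LEC_stmt) : s56eg_A_stmt`   (zero + superadditivity of `s56eg_f`);
* `s56ega_fin_main (hLEC : s56gw_LEC_stmt) : s56eg_Fin_stmt` (finiteness of `H¹(G_S, M)`, `H²(G_S, M)`).
-/
import Fermat.Agent.S56.GW.EC.GDef
import Fermat.Agent.S56.GW.EC.GA.Super

set_option autoImplicit false

open CategoryTheory Module groupCohomology ExtCitation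

namespace Fermat.Agent.S56

open Fermat.Agent.S55

local notation "GQ" => (AlgebraicClosure ℚ ≃ₐ[ℚ] AlgebraicClosure ℚ)

section

variable {p : ℕ} [Fact p.Prime] {Δ : Type} [Group Δ]

/-- `s56ega_f` (GA/Defs.lean) and `s56eg_f` (GDef.lean) are the same function. -/
theorem s56ega_f_eq (S : Finset Nat.Primes) (π : GQ →* Δ) (M : Type) [AddCommGroup M]
    [Module (ZMod p) M] (ρ : Representation (ZMod p) Δ M) :
    s56ega_f p S π M ρ = s56eg_f S π M ρ := rfl

/-- The inflation along a level is smooth. -/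
theorem s56ega_isLev_smooth {S : Finset Nat.Primes} {π : GQ →* Δ} {χ : Δ →* (ZMod p)ˣ}
    (hπ : s56eg_IsLev p S π χ) {M : Type} [AddCommGroup M] [Module (ZMod p) M]
    (ρ : Representation (ZMod p) Δ M) : s56gw_Smooth (s56ega_infl π ρ) := by
  obtain ⟨F, hF, h⟩ := hπ.smooth
  intro m
  refine ⟨F, hF, fun s hs => ?_⟩
  show ρ (π s) m = m
  rw [h s hs, map_one]
  rfl

/-- The inflation along a level unramified outside `S` is unramified outside `S`. -/
theorem s56ega_isLev_unrOut {S : Finset Nat.Primes} {π : GQ →* Δ} {χ : Δ →* (ZMod p)ˣ}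
    (hπ : s56eg_IsLev p S π χ) {M : Type} [AddCommGroup M] [Module (ZMod p) M]
    (ρ : Representation (ZMod p) Δ M) : s56gw_UnrOut S (s56ega_infl π ρ) := by
  intro q hq A hA g hg
  show ρ (π g) = 1
  rw [hπ.unr q hq A hA g hg, map_one]

end

/-- **Seam (A) of `GDef.lean`** ([EC-GA]). -/
theorem s56ega_main (hLEC : s56gw_LEC_stmt) : s56eg_A_stmt := by
  intro p _ hp2 S hpS Δ _ _ π χ hπ
  refine ⟨fun M _ _ _ ρ => s56ega_zero S π M ρ, ?_⟩
  exact s56ega_super_core hLEC hp2 hpS (fun _ _ _ ρ => s56ega_isLev_smooth hπ ρ)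
    (fun _ _ _ ρ => s56ega_isLev_unrOut hπ ρ)

/-- **Seam (Fin) of `GDef.lean`**. -/
theorem s56ega_fin_main (hLEC : s56gw_LEC_stmt) : s56eg_Fin_stmt :=
  fun _ _ hp2 S hpS M _ hsm hur => s56ega_fin hLEC hp2 S hpS M hsm hur

end Fermat.Agent.S56
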